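import Fermat.Agent.S14.Iface.Bridge
import Fermat.Agent.S14.Iface.ArithmeticCore

/-!
# S14: final assembly (owner helper15)

`Fermat/Agent/S14.lean` (the graded file) will contain exactly this proof once every interface
is sorry-free.
-/

set_option autoImplicit false

namespace Fermat.Agent.S14

theorem final {p : ℕ} [Fact p.Prime] (h3 : 3 ≤ p) : ExtCitation.ExtVanishingCts p :=
  bridge h3 (arithmeticCore h3)

end Fermat.Agent.S14
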