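import Mathlib

/-!
# S14 moonshot: shared definitions (FROZEN; owner helper15)

All theories of the S14 development use exactly these notions.

* Primes of a number field `F` are ideals `q : Ideal (𝓞 F)` with `q.IsPrime` and `q ≠ ⊥`.
* All relative extensions `M/F` occurring in interfaces are Galois; the Galois group
  `M ≃ₐ[F] M` acts on `𝓞 M` (Mathlib instance) and on `Ideal (𝓞 M)` (`open scoped Pointwise`).
  Decomposition group of `Q` = `MulAction.stabilizer (M ≃ₐ[F] M) Q`,
  inertia group of `Q` = `Q.inertia (M ≃ₐ[F] M)` (Mathlib: `Ideal.inertia`),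
  Frobenius elements = Mathlib's `IsArithFrobAt (𝓞 F) τ Q`.
* "Artin-symbol-like" functions are plain functions `e : Ideal (𝓞 F) → ZMod p` (only the values
  on nonzero primes matter); they are evaluated on a principal ideal `(y)` by `principalSum`.
-/

set_option autoImplicit false

namespace Fermat.Agent.S14

open NumberField UniqueFactorizationMonoid
open scoped Pointwise

section
variable (F M : Type*) [Field F] [NumberField F] [Field M] [NumberField M] [Algebra F M]

/-- (For `M/F` Galois.) The prime `q` of `F` splits completely in `M`: every prime `Q` of `M`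
above `q` has trivial decomposition group (equivalently `e = f = 1`). -/
def SplitsCompletely (q : Ideal (𝓞 F)) : Prop :=
  ∀ Q : Ideal (𝓞 M), Q.IsPrime → Q.LiesOver q → MulAction.stabilizer (M ≃ₐ[F] M) Q = ⊥

/-- (For `M/F` Galois.) `M/F` is unramified at the prime `Q` of `M`: trivial inertia group. -/
def UnramifiedAt (Q : Ideal (𝓞 M)) : Prop :=
  Q.inertia (M ≃ₐ[F] M) = ⊥

/-- (For `M/F` Galois.) `M/F` is unramified at every nonzero prime of `M`. -/
def UnramifiedEverywhere : Prop :=
  ∀ Q : Ideal (𝓞 M), Q.IsPrime → Q ≠ ⊥ → UnramifiedAt F M Q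

end

section
variable (F : Type*) [Field F] [NumberField F]

/-- The sum of `e` over the prime factors (with multiplicity) of the principal ideal `(y)`.
For `y ≠ 0` this is `∑_v v(y) • e v`. -/
noncomputable def principalSum {A : Type*} [AddCommMonoid A] (e : Ideal (𝓞 F) → A) (y : 𝓞 F) : A :=
  ((normalizedFactors (Ideal.span {y})).map e).sum

end

section
open NumberField

/-- Output of the bridge (theory `Bridge`, owner helper17): the number-field shadow of a non-split
admissible extension.  `K = ℚ(ζ_p)`, `L/K` Galois of degree `p`, `L/ℚ` Galois,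
`σ τ^k σ⁻¹ = τ` whenever `σ ζ = ζ^k` (i.e. `Gal(L/ℚ)` acts on `Gal(L/K)` through `ω⁻¹`),
all inertia groups of `L/K` at primes not above `p` are trivial, and all decomposition groups of
`L/K` at primes above `p` are trivial. -/
structure TwistedExt (p : ℕ) (K L : Type) [Field K] [NumberField K] [Field L] [NumberField L]
    [Algebra K L] : Prop where
  finrank_eq : Module.finrank K L = p
  twist : ∀ (ζ : K), IsPrimitiveRoot ζ p → ∀ (σ : L ≃ₐ[ℚ] L) (k : ℕ),
      σ (algebraMap K L ζ) = algebraMap K L ζ ^ k →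
      ∀ (τ : L ≃ₐ[K] L) (x : L), σ ((τ ^ k) (σ.symm x)) = τ x
  unramified : ∀ (Q : Ideal (𝓞 L)), Q.IsPrime → ((p : ℕ) : 𝓞 L) ∉ Q →
      ∀ τ : L ≃ₐ[K] L, (∀ x : 𝓞 L, ∃ y ∈ Q, τ (x : L) - x = (y : L)) → τ = 1
  split : ∀ (Q : Ideal (𝓞 L)), Q.IsPrime → ((p : ℕ) : 𝓞 L) ∈ Q →
      ∀ τ : L ≃ₐ[K] L, (∀ x ∈ Q, ∃ y ∈ Q, τ (x : L) = (y : L)) → τ = 1

/-- The arithmetic core: no `TwistedExt` exists. -/
def ArithmeticCore (p : ℕ) : Prop :=
  ∀ (K L : Type) [Field K] [NumberField K] [Field L] [NumberField L] [Algebra K L]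
    [IsCyclotomicExtension {p} ℚ K] [IsGalois ℚ L] [IsGalois K L], ¬ TwistedExt p K L

end

end Fermat.Agent.S14
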